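/-
[45b-KUMMER] (helper71): abstract Kummer dévissage for level cohomology in degree `3`.

Let `G` be a group with a level structure `𝒰` (helper15's `Profin15.LevelStr`), `E` a smooth
`G`-module which is `p`-divisible.  If
* (K2) every level `3`-cocycle of `E` with `p`-torsion values is a level coboundary, and
* (K3) every `p`-primary class of level `H²(E)` is divisible by `p`,
then every level `3`-cocycle with values in `E[p]` is the coboundary of a level `2`-cochain with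
values in `E[p]`, i.e. the level `H³` of `E[p]` vanishes.  With `E[p] ≅ ZMod p` (trivial action)
this is the `hbase` hypothesis of the abstract `cd_p ≤ 2` package (45a).

All differentials are the explicit inhomogeneous ones on pairs / triples / quadruples.
-/
import Mathlib
import Fermat.Agent.S55.Profin15.Level

set_option autoImplicit false

universe u v w

namespace Fermat.Agent.S55.CDKummer71

open Fermat.Agent.S55.Profin15

section Defs

variable {k : Type w} [CommRing k] {G : Type u} [Group G] {A : Type v} [AddCommGroup A]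
  [Module k A]

/-- explicit `d¹ : C¹ → C²` -/
def dd12 (ρ : Representation k G A) (e : G → A) : G × G → A :=
  fun x => ρ x.1 (e x.2) - e (x.1 * x.2) + e x.1

/-- explicit `d² : C² → C³` -/
def dd23 (ρ : Representation k G A) (b : G × G → A) : G × G × G → A :=
  fun x => ρ x.1 (b (x.2.1, x.2.2)) - b (x.1 * x.2.1, x.2.2) + b (x.1, x.2.1 * x.2.2)
    - b (x.1, x.2.1)

/-- explicit `d³ : C³ → C⁴` -/
def dd34 (ρ : Representation k G A) (f : G × G × G → A) : G × G × G × G → A :=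
  fun x => ρ x.1 (f (x.2.1, x.2.2.1, x.2.2.2)) - f (x.1 * x.2.1, x.2.2.1, x.2.2.2)
    + f (x.1, x.2.1 * x.2.2.1, x.2.2.2) - f (x.1, x.2.1, x.2.2.1 * x.2.2.2)
    + f (x.1, x.2.1, x.2.2.1)

@[simp] lemma dd12_apply (ρ : Representation k G A) (e : G → A) (g h : G) :
    dd12 ρ e (g, h) = ρ g (e h) - e (g * h) + e g := rfl

@[simp] lemma dd23_apply (ρ : Representation k G A) (b : G × G → A) (g h j : G) :
    dd23 ρ b (g, h, j) = ρ g (b (h, j)) - b (g * h, j) + b (g, h * j) - b (g, h) := rfl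

@[simp] lemma dd34_apply (ρ : Representation k G A) (f : G × G × G → A) (g h i j : G) :
    dd34 ρ f (g, h, i, j) = ρ g (f (h, i, j)) - f (g * h, i, j) + f (g, h * i, j)
      - f (g, h, i * j) + f (g, h, i) := rfl

lemma dd23_dd12 (ρ : Representation k G A) (e : G → A) : dd23 ρ (dd12 ρ e) = 0 := by
  funext ⟨g, h, j⟩
  simp only [dd23_apply, dd12_apply, map_add, map_sub, Pi.zero_apply, mul_assoc]
  rw [← Module.End.mul_apply, ← map_mul]
  abel

lemma dd12_nsmul (ρ : Representation k G A) (n : ℕ) (e : G → A) :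
    dd12 ρ (n • e) = n • dd12 ρ e := by
  funext ⟨g, h⟩
  simp only [dd12_apply, Pi.smul_apply, map_nsmul, smul_add, smul_sub]

lemma dd23_nsmul (ρ : Representation k G A) (n : ℕ) (b : G × G → A) :
    dd23 ρ (n • b) = n • dd23 ρ b := by
  funext ⟨g, h, j⟩
  simp only [dd23_apply, Pi.smul_apply, map_nsmul, smul_add, smul_sub]

lemma dd23_sub (ρ : Representation k G A) (b c : G × G → A) :
    dd23 ρ (b - c) = dd23 ρ b - dd23 ρ c := by
  funext ⟨g, h, j⟩
  simp only [dd23_apply, Pi.sub_apply, map_sub]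
  abel

lemma dd23_add (ρ : Representation k G A) (b c : G × G → A) :
    dd23 ρ (b + c) = dd23 ρ b + dd23 ρ c := by
  funext ⟨g, h, j⟩
  simp only [dd23_apply, Pi.add_apply, map_add]
  abel

end Defs

section Level

variable {k : Type w} [CommRing k] {G : Type u} [Group G] {A : Type v} [AddCommGroup A]
  [Module k A] {𝒰 : LevelStr G}

lemma isConst₂_nsmul {b : G × G → A} (hb : 𝒰.IsConst₂ b) (n : ℕ) : 𝒰.IsConst₂ (n • b) :=
  hb.comp (n • ·)

lemma isConst₂_sub {b c : G × G → A} (hb : 𝒰.IsConst₂ b) (hc : 𝒰.IsConst₂ c) :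
    𝒰.IsConst₂ (b - c) := by
  obtain ⟨U, hU, h⟩ := hb
  obtain ⟨W, hW, hle, h'⟩ := hc.exists_le hU
  exact ⟨W, hW, fun g g' s s' hs hs' => by
    simp only [Pi.sub_apply, h g g' s s' (hle hs) (hle hs'), h' g g' s s' hs hs']⟩

/-- For a smooth module, finitely many vectors are fixed by a common level. -/
lemma exists_level_fixing (ρ : Representation k G A)
    (hsm : ∀ a : A, ∃ U ∈ 𝒰.levels, ∀ s ∈ U, ρ s a = a) {s : Set A} (hs : s.Finite) :
    ∃ V ∈ 𝒰.levels, ∀ a ∈ s, ∀ g ∈ V, ρ g a = a := by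
  induction s, hs using Set.Finite.induction_on with
  | empty =>
    obtain ⟨U, hU⟩ := 𝒰.nonempty
    exact ⟨U, hU, fun a ha => (Set.notMem_empty a ha).elim⟩
  | insert _ _ ih =>
    rename_i a s _ _
    obtain ⟨U, hU, h⟩ := ih
    obtain ⟨V, hV, hV'⟩ := hsm a
    obtain ⟨W, hW, hle⟩ := 𝒰.directed U hU V hV
    refine ⟨W, hW, fun m hm g hg => ?_⟩
    rcases Set.mem_insert_iff.1 hm with rfl | hm
    · exact hV' g (hle.trans inf_le_right hg)
    · exact h m hm g (hle.trans inf_le_left hg)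

/-- For a smooth module, `d¹` of a level cochain is a level cochain. -/
lemma isConst₂_dd12 (ρ : Representation k G A)
    (hsm : ∀ a : A, ∃ U ∈ 𝒰.levels, ∀ s ∈ U, ρ s a = a) {e : G → A} (he : 𝒰.IsConst₁ e) :
    𝒰.IsConst₂ (dd12 ρ e) := by
  obtain ⟨V, hV, hfixV⟩ := exists_level_fixing ρ hsm he.finite_range
  obtain ⟨W, hW, hle, hc⟩ := he.exists_le hV
  have hn := 𝒰.normal W hW
  refine ⟨W, hW, fun g g' s s' hs hs' => ?_⟩
  simp only [dd12_apply]
  have h1 : e (g' * s') = e g' := hc g' s' hs'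
  have h2 : e (g * s) = e g := hc g s hs
  have h3 : e (g * s * (g' * s')) = e (g * g') := by
    have : g * s * (g' * s') = g * g' * ((g'⁻¹ * s * g') * s') := by group
    rw [this]
    exact hc _ _ (W.mul_mem (Subgroup.Normal.conj_mem' hn s hs g') hs')
  rw [h1, h2, h3, map_mul, Module.End.mul_apply, hfixV (e g') ⟨g', rfl⟩ s (hle hs)]

/-- **Averaging.** If a `2`-cocycle `b` is constant modulo the normal finite-index subgroup `U`,
then `[G : U] • b` is the coboundary of the `U`-constant cochain `g ↦ ∑_{q ∈ G/U} b (g, q)`. -/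
lemma exists_dd12_eq_index_nsmul (ρ : Representation k G A) {U : Subgroup G}
    (hUf : U.FiniteIndex) {b : G × G → A}
    (hb : ∀ g g' s s', s ∈ U → s' ∈ U → b (g * s, g' * s') = b (g, g'))
    (hcoc : dd23 ρ b = 0) :
    ∃ e : G → A, (∀ g s, s ∈ U → e (g * s) = e g) ∧ dd12 ρ e = U.index • b := by
  classical
  have : Finite (G ⧸ U) := Subgroup.finite_quotient_of_finiteIndex
  let _ : Fintype (G ⧸ U) := Fintype.ofFinite _
  -- `b (g, x)` only depends on the coset of `x`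
  have hout : ∀ g x : G, b (g, ((x : G ⧸ U)).out) = b (g, x) := by
    intro g x
    obtain ⟨h, hh⟩ := QuotientGroup.mk_out_eq_mul U x
    rw [hh]
    have := hb g x 1 h U.one_mem h.2
    rwa [mul_one] at this
  refine ⟨fun g => ∑ q : G ⧸ U, b (g, q.out), fun g s hs => ?_, ?_⟩
  · refine Finset.sum_congr rfl fun q _ => ?_
    have := hb g q.out s 1 hs U.one_mem
    rwa [mul_one] at this
  · funext ⟨g, h⟩
    have hc : ∀ j : G, ρ g (b (h, j)) - b (g * h, j) + b (g, h * j) - b (g, h) = 0 := fun j => by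
      have := congrFun hcoc (g, h, j)
      simpa using this
    have hsum : ∑ q : G ⧸ U, (ρ g (b (h, q.out)) - b (g * h, q.out) + b (g, h * q.out)
        - b (g, h)) = 0 := Finset.sum_eq_zero fun q _ => hc q.out
    rw [Finset.sum_sub_distrib, Finset.sum_add_distrib, Finset.sum_sub_distrib] at hsum
    have h3 : ∑ q : G ⧸ U, b (g, h * q.out) = ∑ q : G ⧸ U, b (g, q.out) := by
      have : ∀ q : G ⧸ U, b (g, h * q.out) = b (g, (h • q).out) := by
        intro q
        have hq : ((h * q.out : G) : G ⧸ U) = h • q := by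
          conv_rhs => rw [← QuotientGroup.out_eq' q]
          rfl
        rw [← hq, hout]
      simp only [this]
      exact Equiv.sum_comp (MulAction.toPerm h) fun q : G ⧸ U => b (g, q.out)
    have h4 : ∑ _q : G ⧸ U, b (g, h) = U.index • b (g, h) := by
      rw [Finset.sum_const, Finset.card_univ, Subgroup.index_eq_card, Nat.card_eq_fintype_card]
    rw [h3, h4, ← map_sum] at hsum
    simp only [dd12_apply, Pi.smul_apply]
    exact sub_eq_zero.1 hsum

end Level

section Main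

variable {k : Type w} [CommRing k] {G : Type u} [Group G] {E : Type v} [AddCommGroup E]
  [Module k E]

/-- **Abstract Kummer dévissage.**  Let `E` be a smooth `p`-divisible `G`-module such that
(K2) level `3`-cocycles of `E` with `p`-torsion values are level coboundaries and (K3) `p`-primary
classes of level `H²(E)` are divisible by `p`.  Then level `H³(E[p]) = 0`. -/
theorem kummer_H3_torsion (𝒰 : LevelStr G) (ρ : Representation k G E) (p : ℕ)
    [hp : Fact p.Prime]
    (hsm : ∀ e : E, ∃ U ∈ 𝒰.levels, ∀ s ∈ U, ρ s e = e)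
    (hK1 : ∀ e : E, ∃ e' : E, p • e' = e)
    (hK2 : ∀ f : G × G × G → E, 𝒰.IsConst₃ f → dd34 ρ f = 0 → (∀ x, p • f x = 0) →
      ∃ b : G × G → E, 𝒰.IsConst₂ b ∧ dd23 ρ b = f)
    (hK3 : ∀ c : G × G → E, 𝒰.IsConst₂ c → dd23 ρ c = 0 →
      (∃ a : ℕ, ∃ e : G → E, 𝒰.IsConst₁ e ∧ dd12 ρ e = p ^ a • c) →
      ∃ (c' : G × G → E) (e : G → E), 𝒰.IsConst₂ c' ∧ dd23 ρ c' = 0 ∧ 𝒰.IsConst₁ e ∧
        c = p • c' + dd12 ρ e)
    (f : G × G × G → E) (hf : 𝒰.IsConst₃ f) (hcoc : dd34 ρ f = 0) (hpf : ∀ x, p • f x = 0) :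
    ∃ b : G × G → E, 𝒰.IsConst₂ b ∧ (∀ x, p • b x = 0) ∧ dd23 ρ b = f := by
  classical
  obtain ⟨b₀, hb₀c, hb₀⟩ := hK2 f hf hcoc hpf
  obtain ⟨U, hU, hUb⟩ := hb₀c
  have hUf := 𝒰.finiteIndex U hU
  -- `c₀ = p • b₀` is a cocycle
  have hpf' : p • f = 0 := funext fun x => by simpa using hpf x
  have hc₀ : dd23 ρ (p • b₀) = 0 := by rw [dd23_nsmul, hb₀, hpf']
  have hc₀U : ∀ g g' s s', s ∈ U → s' ∈ U → (p • b₀) (g * s, g' * s') = (p • b₀) (g, g') :=
    fun g g' s s' hs hs' => by simp only [Pi.smul_apply, hUb g g' s s' hs hs']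
  obtain ⟨e₀, he₀c, he₀⟩ := exists_dd12_eq_index_nsmul ρ hUf hc₀U hc₀
  obtain ⟨a, m, hm, hN⟩ := Nat.exists_eq_pow_mul_and_not_dvd hUf.index_ne_zero p hp.out.ne_one
  -- the class of `c = m • c₀` is `p`-primary
  have hb₀c' : 𝒰.IsConst₂ b₀ := ⟨U, hU, hUb⟩
  have hcc : 𝒰.IsConst₂ (m • (p • b₀)) := isConst₂_nsmul (isConst₂_nsmul hb₀c' p) m
  have hcz : dd23 ρ (m • (p • b₀)) = 0 := by rw [dd23_nsmul, hc₀, smul_zero]
  have hca : dd12 ρ e₀ = p ^ a • (m • (p • b₀)) := by rw [he₀, hN, mul_smul]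
  obtain ⟨c', e, hc'c, hc'z, hec, hce⟩ := hK3 _ hcc hcz ⟨a, e₀, ⟨U, hU, he₀c⟩, hca⟩
  -- `p`-th "roots" of `e`
  let φ : E → E := fun x => (hK1 x).choose
  have hφ : ∀ x, p • φ x = x := fun x => (hK1 x).choose_spec
  have hεc : 𝒰.IsConst₁ (φ ∘ e) := hec.comp φ
  have hε : p • (φ ∘ e) = e := funext fun x => by simp only [Pi.smul_apply, Function.comp_apply, hφ]
  -- the corrected cochain
  have hdεc : 𝒰.IsConst₂ (dd12 ρ (φ ∘ e)) := isConst₂_dd12 ρ hsm hεc
  set b' : G × G → E := m • b₀ - c' - dd12 ρ (φ ∘ e) with hb'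
  have hb'c : 𝒰.IsConst₂ b' := isConst₂_sub (isConst₂_sub (isConst₂_nsmul hb₀c' m) hc'c) hdεc
  have hb'p : p • b' = 0 := by
    rw [hb', smul_sub, smul_sub, ← dd12_nsmul, hε, smul_comm p m b₀, hce]
    abel
  have hb'd : dd23 ρ b' = m • f := by
    rw [hb', dd23_sub, dd23_sub, dd23_nsmul, hb₀, hc'z, dd23_dd12, sub_zero, sub_zero]
  -- invert `m` modulo `p`
  have hcop : Nat.Coprime m p := ((Nat.Prime.coprime_iff_not_dvd hp.out).2 hm).symm
  obtain ⟨m', -, hm'⟩ := Nat.exists_mul_mod_eq_one_of_coprime hcop hp.out.one_lt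
  refine ⟨m' • b', isConst₂_nsmul hb'c m', fun x => ?_, ?_⟩
  · have := congrFun hb'p x
    simp only [Pi.smul_apply, Pi.zero_apply] at this
    rw [Pi.smul_apply, smul_comm, this, smul_zero]
  · rw [dd23_nsmul, hb'd, ← mul_smul, mul_comm, ← Nat.div_add_mod (m * m') p, hm', add_smul,
      one_smul, mul_comm p, mul_smul, hpf', smul_zero, zero_add]

/-- `IsConst₃` is stable under post-composition. -/
lemma isConst₃_comp {𝒰 : LevelStr G} {X Y : Type*} {f : G × G × G → X} (hf : 𝒰.IsConst₃ f)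
    (φ : X → Y) : 𝒰.IsConst₃ (φ ∘ f) := by
  obtain ⟨U, hU, h⟩ := hf
  exact ⟨U, hU, fun g g' g'' s s' s'' hs hs' hs'' => by
    simp only [Function.comp_apply, h g g' g'' s s' s'' hs hs' hs'']⟩

/-- **The `hbase` shape.**  If moreover `E[p]` is generated by a `G`-fixed element `ζ ≠ 0`
(so `E[p] ≅ ZMod p` with trivial action), then level `H³` of the trivial module `ZMod p`
vanishes: every level `3`-cocycle `G³ → ZMod p` is the coboundary of a level `2`-cochain. -/
theorem h3Vanishes_trivial_zmod (𝒰 : LevelStr G) (ρ : Representation k G E) (p : ℕ)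
    [hp : Fact p.Prime]
    (hsm : ∀ e : E, ∃ U ∈ 𝒰.levels, ∀ s ∈ U, ρ s e = e)
    (hK1 : ∀ e : E, ∃ e' : E, p • e' = e)
    (hK2 : ∀ f : G × G × G → E, 𝒰.IsConst₃ f → dd34 ρ f = 0 → (∀ x, p • f x = 0) →
      ∃ b : G × G → E, 𝒰.IsConst₂ b ∧ dd23 ρ b = f)
    (hK3 : ∀ c : G × G → E, 𝒰.IsConst₂ c → dd23 ρ c = 0 →
      (∃ a : ℕ, ∃ e : G → E, 𝒰.IsConst₁ e ∧ dd12 ρ e = p ^ a • c) →
      ∃ (c' : G × G → E) (e : G → E), 𝒰.IsConst₂ c' ∧ dd23 ρ c' = 0 ∧ 𝒰.IsConst₁ e ∧
        c = p • c' + dd12 ρ e)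
    (ζ : E) (hζ : p • ζ = 0) (hζ0 : ζ ≠ 0) (hgen : ∀ e : E, p • e = 0 → ∃ j : ℕ, e = j • ζ)
    (hfix : ∀ g, ρ g ζ = ζ)
    (f : G × G × G → ZMod p) (hf : 𝒰.IsConst₃ f)
    (hcoc : dd34 (Representation.trivial (ZMod p) G (ZMod p)) f = 0) :
    ∃ b : G × G → ZMod p, 𝒰.IsConst₂ b ∧
      dd23 (Representation.trivial (ZMod p) G (ZMod p)) b = f := by
  classical
  -- the embedding `ZMod p → E`, `j ↦ j • ζ`
  let φ : ZMod p →+ E := ZMod.lift p ⟨zmultiplesHom E ζ, by simpa using hζ⟩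
  have hφn : ∀ n : ℕ, φ (n : ZMod p) = n • ζ := fun n => by
    have := ZMod.lift_coe p (⟨zmultiplesHom E ζ, by simpa using hζ⟩ :
      {f : ℤ →+ E // f p = 0}) (n : ℤ)
    simpa [φ] using this
  have hφv : ∀ y : ZMod p, φ y = y.val • ζ := fun y => by
    conv_lhs => rw [← ZMod.natCast_zmod_val y]
    exact hφn _
  have hφfix : ∀ g y, ρ g (φ y) = φ y := fun g y => by rw [hφv, map_nsmul, hfix]
  have hφinj : Function.Injective φ := by
    rw [injective_iff_map_eq_zero]
    intro y hy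
    rw [hφv] at hy
    have h1 : addOrderOf ζ ∣ p := addOrderOf_dvd_of_nsmul_eq_zero hζ
    have h2 : addOrderOf ζ ∣ y.val := addOrderOf_dvd_of_nsmul_eq_zero hy
    rcases (Nat.dvd_prime hp.out).1 h1 with h | h
    · exact absurd (AddMonoid.addOrderOf_eq_one_iff.1 h) hζ0
    · rw [h] at h2
      have := Nat.eq_zero_of_dvd_of_lt h2 (ZMod.val_lt y)
      exact (ZMod.val_eq_zero y).1 this
  have hφrange : ∀ e : E, p • e = 0 → ∃ y, φ y = e := fun e he => by
    obtain ⟨j, rfl⟩ := hgen e he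
    exact ⟨(j : ZMod p), hφn j⟩
  -- transport the cocycle to `E`
  have hFc : 𝒰.IsConst₃ (φ ∘ f) := isConst₃_comp hf φ
  have hFz : dd34 ρ (φ ∘ f) = 0 := by
    funext ⟨g, h, i, j⟩
    have := congrFun hcoc (g, h, i, j)
    simp only [dd34_apply, Representation.trivial_apply, Pi.zero_apply] at this
    simp only [dd34_apply, Function.comp_apply, hφfix, Pi.zero_apply, ← map_sub, ← map_add, this,
      map_zero]
  have hFp : ∀ x, p • (φ ∘ f) x = 0 := fun x => by
    simp only [Function.comp_apply, ← map_nsmul]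
    rw [show p • f x = 0 by simp, map_zero]
  obtain ⟨B, hBc, hBp, hBd⟩ := kummer_H3_torsion 𝒰 ρ p hsm hK1 hK2 hK3 (φ ∘ f) hFc hFz hFp
  -- and back
  have hsec : ∀ x, φ (Function.invFun φ (B x)) = B x := fun x =>
    Function.invFun_eq (hφrange (B x) (hBp x))
  refine ⟨Function.invFun φ ∘ B, hBc.comp _, ?_⟩
  funext ⟨g, h, j⟩
  apply hφinj
  have := congrFun hBd (g, h, j)
  simp only [dd23_apply, Function.comp_apply] at this
  simp only [dd23_apply, Representation.trivial_apply, Function.comp_apply, map_sub, map_add,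
    hsec]
  rw [← this, ← hsec (h, j), hφfix]

end Main

end Fermat.Agent.S55.CDKummer71
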