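/-
[45b-H3-EXPLICIT] (helper71): Mathlib degree-`3` bridge.

If `groupCohomology A 3` vanishes, then every explicit inhomogeneous `3`-cocycle
`f : G × G × G → A` (i.e. `dd34 A.ρ f = 0`) is the explicit coboundary `dd23 A.ρ b` of a
`2`-cochain `b : G × G → A`.  This turns Tate's theorem `H³(G, C) ≅ H¹(G, ℤ) = 0` into a statement
about explicit cochains, as consumed by the Kummer dévissage `CDKummer71.kummer_H3_torsion`.
-/
import Mathlib
import Fermat.Agent.S55.CDKummer71.Kummer

set_option autoImplicit false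

universe u

open CategoryTheory groupCohomology

namespace Fermat.Agent.S55.CDKummer71

variable {k G : Type u} [CommRing k] [Group G] (A : Rep k G)

/-- the inhomogeneous `3`-cochain attached to a function on triples -/
def fin3 (f : G × G × G → A) : (Fin 3 → G) → A := fun x => f (x 0, x 1, x 2)

lemma cochainsIso₃_inv_apply (f : G × G × G → A) :
    (cochainsIso₃ A).inv f = fin3 A f := rfl

lemma cochainsIso₃_hom_fin3 (f : G × G × G → A) :
    (cochainsIso₃ A).hom (fin3 A f) = f := by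
  rw [← cochainsIso₃_inv_apply]
  exact congrArg (fun g => g f) (ModuleCat.hom_ext_iff.1 (cochainsIso₃ A).inv_hom_id) |>.trans rfl

/-- The Mathlib differential `d³` on `fin3 f` is the explicit `dd34 f`. -/
lemma d_fin3_apply (f : G × G × G → A) (x : Fin 4 → G) :
    inhomogeneousCochains.d A 3 (fin3 A f) x = dd34 A.ρ f (x 0, x 1, x 2, x 3) := by
  rw [inhomogeneousCochains.d_hom_apply, Fin.sum_univ_four]
  simp only [dd34_apply, fin3]
  have e0 : ∀ i : Fin 3, Fin.contractNth (0 : Fin 4) (· * ·) x i = ![x 0 * x 1, x 2, x 3] i := by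
    intro i; fin_cases i <;> rfl
  have e1 : ∀ i : Fin 3, Fin.contractNth (1 : Fin 4) (· * ·) x i = ![x 0, x 1 * x 2, x 3] i := by
    intro i; fin_cases i <;> rfl
  have e2 : ∀ i : Fin 3, Fin.contractNth (2 : Fin 4) (· * ·) x i = ![x 0, x 1, x 2 * x 3] i := by
    intro i; fin_cases i <;> rfl
  have e3 : ∀ i : Fin 3, Fin.contractNth (3 : Fin 4) (· * ·) x i = ![x 0, x 1, x 2] i := by
    intro i; fin_cases i <;> rfl
  simp only [e0, e1, e2, e3]
  have s1 : (Fin.succ (0 : Fin 3)) = (1 : Fin 4) := rfl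
  have s2 : (Fin.succ (1 : Fin 3)) = (2 : Fin 4) := rfl
  have s3 : (Fin.succ (2 : Fin 3)) = (3 : Fin 4) := rfl
  simp only [s1, s2, s3, Matrix.cons_val_zero, Matrix.cons_val_one, Matrix.cons_val_two,
    Fin.val_zero, Fin.val_one, Fin.val_two, zero_add, pow_one, neg_smul, one_smul]
  have h3 : ((3 : Fin 4) : ℕ) = 3 := rfl
  rw [h3]
  norm_num
  abel

lemma d_fin3_eq_zero {f : G × G × G → A} (hf : dd34 A.ρ f = 0) :
    inhomogeneousCochains.d A 3 (fin3 A f) = 0 := by
  funext x
  rw [d_fin3_apply, hf]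
  rfl

/-- Mathlib's `d₂₃` is the explicit `dd23`. -/
lemma d₂₃_eq_dd23 (b : G × G → A) : (d₂₃ A).hom b = dd23 A.ρ b := by
  funext ⟨g, h, j⟩
  simp only [d₂₃_hom_apply, dd23_apply]

/-- Mathlib's `d₁₂` is the explicit `dd12`. -/
lemma d₁₂_eq_dd12 (e : G → A) : (d₁₂ A).hom e = dd12 A.ρ e := by
  funext ⟨g, h⟩
  simp only [d₁₂_hom_apply, dd12_apply]

/-- the inhomogeneous `2`-cochain attached to a function on pairs -/
def fin2 (b : G × G → A) : (Fin 2 → G) → A := fun x => b (x 0, x 1)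

lemma fin2_surjective (b2 : (Fin 2 → G) → A) : fin2 A (fun q => b2 ![q.1, q.2]) = b2 := by
  funext x
  simp only [fin2]
  congr 1
  funext i
  fin_cases i <;> rfl

/-- The Mathlib differential `d²` on `fin2 b` is the explicit `dd23 b`. -/
lemma d_fin2_apply (b : G × G → A) (x : Fin 3 → G) :
    inhomogeneousCochains.d A 2 (fin2 A b) x = dd23 A.ρ b (x 0, x 1, x 2) := by
  rw [inhomogeneousCochains.d_hom_apply, Fin.sum_univ_three]
  simp only [dd23_apply, fin2]
  have e0 : ∀ i : Fin 2, Fin.contractNth (0 : Fin 3) (· * ·) x i = ![x 0 * x 1, x 2] i := by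
    intro i; fin_cases i <;> rfl
  have e1 : ∀ i : Fin 2, Fin.contractNth (1 : Fin 3) (· * ·) x i = ![x 0, x 1 * x 2] i := by
    intro i; fin_cases i <;> rfl
  have e2 : ∀ i : Fin 2, Fin.contractNth (2 : Fin 3) (· * ·) x i = ![x 0, x 1] i := by
    intro i; fin_cases i <;> rfl
  simp only [e0, e1, e2]
  have s1 : (Fin.succ (0 : Fin 2)) = (1 : Fin 3) := rfl
  have s2 : (Fin.succ (1 : Fin 2)) = (2 : Fin 3) := rfl
  simp only [s1, s2, Matrix.cons_val_zero, Matrix.cons_val_one,
    Fin.val_zero, Fin.val_one, Fin.val_two, zero_add, pow_one, neg_smul, one_smul]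
  norm_num
  abel

/-- Exactness of the inhomogeneous complex in degree `3`, on elements. -/
lemma exists_d2_eq_of_isZero_H3 (h3 : Limits.IsZero (groupCohomology A 3))
    (F : (Fin 3 → G) → A) (hF : inhomogeneousCochains.d A 3 F = 0) :
    ∃ b2 : (Fin 2 → G) → A, inhomogeneousCochains.d A 2 b2 = F := by
  have hex : (inhomogeneousCochains A).ExactAt 3 :=
    (HomologicalComplex.exactAt_iff_isZero_homology _ _).2 h3
  rw [HomologicalComplex.exactAt_iff' _ 2 3 4 (by simp) (by simp),
    ShortComplex.moduleCat_exact_iff] at hex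
  obtain ⟨b2, hb2⟩ := hex F (by
    show (inhomogeneousCochains A).d 3 4 F = 0
    rw [inhomogeneousCochains.d_def]
    exact hF)
  refine ⟨b2, ?_⟩
  have hb2' : (inhomogeneousCochains A).d 2 3 b2 = F := hb2
  rwa [inhomogeneousCochains.d_def] at hb2'

/-- **Degree-`3` bridge.** If `H³(G, A) = 0` then every explicit `3`-cocycle is an explicit
coboundary. -/
theorem exists_dd23_eq_of_isZero_H3 (h3 : Limits.IsZero (groupCohomology A 3))
    (f : G × G × G → A) (hf : dd34 A.ρ f = 0) : ∃ b : G × G → A, dd23 A.ρ b = f := by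
  obtain ⟨b2, hb2⟩ := exists_d2_eq_of_isZero_H3 A h3 (fin3 A f) (d_fin3_eq_zero A hf)
  refine ⟨fun q => b2 ![q.1, q.2], ?_⟩
  funext ⟨g, h, j⟩
  have h1 := d_fin2_apply A (fun q => b2 ![q.1, q.2]) ![g, h, j]
  rw [fin2_surjective, hb2] at h1
  simpa [fin3] using h1.symm

end Fermat.Agent.S55.CDKummer71
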