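/-
[45c-INFL3-BIG] (helper71): finite-level → level bridge in degree `3` for arbitrary (big) smooth
modules.

Let `𝒰` be a level structure on `G` and `A : Rep k G` a smooth module.  If for every level `U`
the Mathlib group cohomology `H³(G ⧸ U, A^U)` vanishes, then every level `3`-cocycle of `A` is
the coboundary of a level `2`-cochain, i.e. `CD3.H3Vanishes 𝒰 A.ρ`.

This is the form in which Tate's theorem `H³(Gal(L/K), Lˣ) ≅ H¹(Gal(L/K), ℤ) = 0` (and its
semilocal Shapiro version for idèles) enters the Kummer dévissage for `cd_p ≤ 2`.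
-/
import Mathlib
import Fermat.Agent.S55.CDKummer71.H3Explicit
import Fermat.Agent.S55.CD3.Cochain

set_option autoImplicit false

universe u

open CategoryTheory groupCohomology

namespace Fermat.Agent.S55.CDKummer71

open Fermat.Agent.S55.Profin15

variable {k G : Type u} [CommRing k] [Group G]

section Descent

variable (A : Rep k G) (U : Subgroup G) [hU : U.Normal]

/-- The action of `G ⧸ U` on `A^U`, evaluated on a coset representative. -/
lemma quotientToInvariants_coe_apply (g : G) (x : (A.quotientToInvariants U)) :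
    ((A.quotientToInvariants U).ρ (g : G ⧸ U) x).1 = A.ρ g x.1 := rfl

/-- **One-level form.**  If `f : G³ → A` is constant modulo the normal subgroup `U`, has
`U`-invariant values and is an explicit `3`-cocycle, and `H³(G ⧸ U, A^U) = 0`, then `f` is the
explicit coboundary of a `2`-cochain which is constant modulo `U`. -/
theorem exists_dd23_eq_of_isZero_H3_quotient
    (h3 : Limits.IsZero (groupCohomology (A.quotientToInvariants U) 3))
    (f : G × G × G → A)
    (hconst : ∀ g g' g'' s s' s'', s ∈ U → s' ∈ U → s'' ∈ U →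
      f (g * s, g' * s', g'' * s'') = f (g, g', g''))
    (hinv : ∀ x, ∀ s ∈ U, A.ρ s (f x) = f x)
    (hcoc : dd34 A.ρ f = 0) :
    ∃ b : G × G → A, (∀ g g' s s', s ∈ U → s' ∈ U → b (g * s, g' * s') = b (g, g')) ∧
      dd23 A.ρ b = f := by
  classical
  -- `f` only depends on cosets
  have hcos : ∀ g g' g'' h h' h'' : G, (g : G ⧸ U) = h → (g' : G ⧸ U) = h' →
      (g'' : G ⧸ U) = h'' → f (g, g', g'') = f (h, h', h'') := by
    intro g g' g'' h h' h'' e e' e''
    have := hconst g g' g'' (g⁻¹ * h) (g'⁻¹ * h') (g''⁻¹ * h'') (QuotientGroup.eq.1 e)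
      (QuotientGroup.eq.1 e') (QuotientGroup.eq.1 e'')
    rw [mul_inv_cancel_left, mul_inv_cancel_left, mul_inv_cancel_left] at this
    exact this.symm
  -- the descended cochain
  let fbar : (G ⧸ U) × (G ⧸ U) × (G ⧸ U) → (A.quotientToInvariants U) := fun q =>
    ⟨f (q.1.out, q.2.1.out, q.2.2.out), fun s => hinv _ s.1 s.2⟩
  have hfbar : ∀ g g' g'' : G, (fbar ((g : G ⧸ U), (g' : G ⧸ U), (g'' : G ⧸ U))).1 =
      f (g, g', g'') := fun g g' g'' =>
    hcos _ _ _ _ _ _ (QuotientGroup.out_eq' _) (QuotientGroup.out_eq' _) (QuotientGroup.out_eq' _)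
  have hfbarcoc : dd34 (A.quotientToInvariants U).ρ fbar = 0 := by
    funext ⟨q₁, q₂, q₃, q₄⟩
    obtain ⟨g₁, rfl⟩ := QuotientGroup.mk_surjective q₁
    obtain ⟨g₂, rfl⟩ := QuotientGroup.mk_surjective q₂
    obtain ⟨g₃, rfl⟩ := QuotientGroup.mk_surjective q₃
    obtain ⟨g₄, rfl⟩ := QuotientGroup.mk_surjective q₄
    apply Subtype.ext
    have := congrFun hcoc (g₁, g₂, g₃, g₄)
    simp only [dd34_apply, Pi.zero_apply] at this
    simp only [dd34_apply, ← QuotientGroup.mk_mul, Pi.zero_apply]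
    rw [Submodule.coe_add, Submodule.coe_sub, Submodule.coe_add, Submodule.coe_sub,
      quotientToInvariants_coe_apply, hfbar, hfbar, hfbar, hfbar, hfbar, this]
    rfl
  obtain ⟨bbar, hbbar⟩ := exists_dd23_eq_of_isZero_H3 (A.quotientToInvariants U) h3 fbar hfbarcoc
  refine ⟨fun x => (bbar ((x.1 : G ⧸ U), (x.2 : G ⧸ U))).1, fun g g' s s' hs hs' => ?_, ?_⟩
  · have e : ((g * s : G) : G ⧸ U) = g := by
      rw [QuotientGroup.mk_mul, (QuotientGroup.eq_one_iff s).2 hs, mul_one]
    have e' : ((g' * s' : G) : G ⧸ U) = g' := by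
      rw [QuotientGroup.mk_mul, (QuotientGroup.eq_one_iff s').2 hs', mul_one]
    simp only [e, e']
  · funext ⟨g, h, j⟩
    have := congrArg Subtype.val (congrFun hbbar ((g : G ⧸ U), (h : G ⧸ U), (j : G ⧸ U)))
    rw [hfbar] at this
    rw [← this]
    simp only [dd23_apply, ← QuotientGroup.mk_mul]
    rw [Submodule.coe_sub, Submodule.coe_add, Submodule.coe_sub, quotientToInvariants_coe_apply]

end Descent

section Level

/-- A level-constant function on triples has finite range. -/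
lemma isConst₃_finite_range {𝒰 : LevelStr G} {X : Type*} {f : G × G × G → X}
    (hf : 𝒰.IsConst₃ f) : (Set.range f).Finite := by
  obtain ⟨U, hU, h⟩ := hf
  have := 𝒰.finiteIndex U hU
  have : Finite (G ⧸ U) := Subgroup.finite_quotient_of_finiteIndex
  have key : ∀ a b c a' b' c' : G, (a : G ⧸ U) = a' → (b : G ⧸ U) = b' → (c : G ⧸ U) = c' →
      f (a, b, c) = f (a', b', c') := by
    intro a b c a' b' c' ha hb hc
    have := h a b c (a⁻¹ * a') (b⁻¹ * b') (c⁻¹ * c') (QuotientGroup.eq.1 ha)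
      (QuotientGroup.eq.1 hb) (QuotientGroup.eq.1 hc)
    rw [mul_inv_cancel_left, mul_inv_cancel_left, mul_inv_cancel_left] at this
    exact this.symm
  let f' : (G ⧸ U) × (G ⧸ U) × (G ⧸ U) → X := fun x =>
    f (Quotient.out x.1, Quotient.out x.2.1, Quotient.out x.2.2)
  have : Set.range f ⊆ Set.range f' := by
    rintro _ ⟨⟨a, b, c⟩, rfl⟩
    refine ⟨(QuotientGroup.mk a, QuotientGroup.mk b, QuotientGroup.mk c), ?_⟩
    exact key _ _ _ _ _ _ (QuotientGroup.out_eq' _) (QuotientGroup.out_eq' _)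
      (QuotientGroup.out_eq' _)
  exact (Set.finite_range f').subset this

/-- **Finite levels ⇒ level cohomology, degree `3`, big modules (cofinal form).**
If `A` is smooth and every level contains a level `U'` with `H³(G ⧸ U', A^{U'}) = 0`, then level
`H³(A)` vanishes. -/
theorem h3Vanishes_of_cofinal_isZero_H3 (𝒰 : LevelStr G) (A : Rep k G)
    (hsm : CD3.IsSmoothRep 𝒰 A.ρ)
    (h3 : ∀ U ∈ 𝒰.levels, ∃ U' : Subgroup G, ∃ hU' : U' ∈ 𝒰.levels, U' ≤ U ∧
      letI := 𝒰.normal U' hU'
      Limits.IsZero (groupCohomology (A.quotientToInvariants U') 3)) :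
    CD3.H3Vanishes 𝒰 A.ρ := by
  intro f hf hcoc
  obtain ⟨V, hV, hfix⟩ := hsm.exists_level_of_finite (isConst₃_finite_range hf)
  obtain ⟨W, hW, hle, hc⟩ := CD3.isConst₃_exists_le hf hV
  obtain ⟨U', hU', hle', hz⟩ := h3 W hW
  have hn := 𝒰.normal U' hU'
  obtain ⟨b, hbc, hb⟩ := exists_dd23_eq_of_isZero_H3_quotient A U' hz f
    (fun g g' g'' s s' s'' hs hs' hs'' => hc g g' g'' s s' s'' (hle' hs) (hle' hs') (hle' hs''))
    (fun x s hs => hfix (f x) ⟨x, rfl⟩ s (hle (hle' hs))) hcoc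
  exact ⟨b, ⟨U', hU', hbc⟩, hb⟩

/-- **Finite levels ⇒ level cohomology, degree `3`, big modules.** -/
theorem h3Vanishes_of_isZero_H3 (𝒰 : LevelStr G) (A : Rep k G)
    (hsm : CD3.IsSmoothRep 𝒰 A.ρ)
    (h3 : ∀ U (hU : U ∈ 𝒰.levels), letI := 𝒰.normal U hU
      Limits.IsZero (groupCohomology (A.quotientToInvariants U) 3)) :
    CD3.H3Vanishes 𝒰 A.ρ :=
  h3Vanishes_of_cofinal_isZero_H3 𝒰 A hsm fun U hU => ⟨U, hU, le_rfl, h3 U hU⟩

end Level

end Fermat.Agent.S55.CDKummer71
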