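/-
[P2 / 45b] (helper71): degree-`2` divisibility bridge.

Let `A : Rep k G`, `U ⊴ G`.  If `H²(G ⧸ U, A^U)` (Mathlib group cohomology) is cyclic of order
divisible by `p * m` (generated by `γ`, with `j • γ = 0 → N ∣ j`, `p * m ∣ N`), then every explicit
`2`-cocycle `c : G × G → A` which is constant modulo `U`, has `U`-invariant values and is killed by
`m` modulo coboundaries of the same kind, is `p`-divisible modulo such coboundaries.

This is the one-level form of "the `p`-primary part of `Br(K) = ℚ/ℤ` is `p`-divisible".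
-/
import Mathlib
import Fermat.Agent.S55.CDKummer71.LevelBridge

set_option autoImplicit false

open CategoryTheory groupCohomology

namespace Fermat.Agent.S55.CDKummer71

universe u

variable {k G : Type u} [CommRing k] [Group G]

section Descent2

variable (A : Rep k G) (U : Subgroup G) [hU : U.Normal]

/-- descend a `2`-cochain, constant modulo `U` with `U`-invariant values, to `G ⧸ U` -/
noncomputable def descend₂ (c : G × G → A) (hinv : ∀ x, ∀ s ∈ U, A.ρ s (c x) = c x) :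
    (G ⧸ U) × (G ⧸ U) → (A.quotientToInvariants U) := fun q =>
  ⟨c (q.1.out, q.2.out), fun s => hinv _ s.1 s.2⟩

/-- descend a `1`-cochain -/
noncomputable def descend₁ (e : G → A) (hinv : ∀ x, ∀ s ∈ U, A.ρ s (e x) = e x) :
    (G ⧸ U) → (A.quotientToInvariants U) := fun q =>
  ⟨e q.out, fun s => hinv _ s.1 s.2⟩

lemma descend₂_coe (c : G × G → A)
    (hconst : ∀ g g' s s', s ∈ U → s' ∈ U → c (g * s, g' * s') = c (g, g'))
    (hinv : ∀ x, ∀ s ∈ U, A.ρ s (c x) = c x) (g g' : G) :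
    (descend₂ A U c hinv ((g : G ⧸ U), (g' : G ⧸ U))).1 = c (g, g') := by
  have e : ((g : G ⧸ U)).out⁻¹ * g ∈ U := QuotientGroup.eq.1 (QuotientGroup.out_eq' _)
  have e' : ((g' : G ⧸ U)).out⁻¹ * g' ∈ U := QuotientGroup.eq.1 (QuotientGroup.out_eq' _)
  have := hconst ((g : G ⧸ U)).out ((g' : G ⧸ U)).out _ _ e e'
  rw [mul_inv_cancel_left, mul_inv_cancel_left] at this
  exact this.symm

lemma descend₁_coe (e : G → A) (hconst : ∀ g s, s ∈ U → e (g * s) = e g)
    (hinv : ∀ x, ∀ s ∈ U, A.ρ s (e x) = e x) (g : G) :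
    (descend₁ A U e hinv (g : G ⧸ U)).1 = e g := by
  have h : ((g : G ⧸ U)).out⁻¹ * g ∈ U := QuotientGroup.eq.1 (QuotientGroup.out_eq' _)
  have := hconst ((g : G ⧸ U)).out _ h
  rw [mul_inv_cancel_left] at this
  exact this.symm

lemma dd23_descend₂ (c : G × G → A)
    (hconst : ∀ g g' s s', s ∈ U → s' ∈ U → c (g * s, g' * s') = c (g, g'))
    (hinv : ∀ x, ∀ s ∈ U, A.ρ s (c x) = c x) (hcoc : dd23 A.ρ c = 0) :
    dd23 (A.quotientToInvariants U).ρ (descend₂ A U c hinv) = 0 := by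
  funext ⟨q₁, q₂, q₃⟩
  obtain ⟨g₁, rfl⟩ := QuotientGroup.mk_surjective q₁
  obtain ⟨g₂, rfl⟩ := QuotientGroup.mk_surjective q₂
  obtain ⟨g₃, rfl⟩ := QuotientGroup.mk_surjective q₃
  apply Subtype.ext
  have := congrFun hcoc (g₁, g₂, g₃)
  simp only [dd23_apply, Pi.zero_apply] at this
  simp only [dd23_apply, ← QuotientGroup.mk_mul, Pi.zero_apply]
  rw [Submodule.coe_sub, Submodule.coe_add, Submodule.coe_sub,
    quotientToInvariants_coe_apply, descend₂_coe A U c hconst hinv,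
    descend₂_coe A U c hconst hinv, descend₂_coe A U c hconst hinv,
    descend₂_coe A U c hconst hinv, this]
  rfl

lemma dd12_descend₁ (e : G → A) (hconst : ∀ g s, s ∈ U → e (g * s) = e g)
    (hinv : ∀ x, ∀ s ∈ U, A.ρ s (e x) = e x) (g h : G) :
    (dd12 (A.quotientToInvariants U).ρ (descend₁ A U e hinv) ((g : G ⧸ U), (h : G ⧸ U))).1 =
      dd12 A.ρ e (g, h) := by
  simp only [dd12_apply, ← QuotientGroup.mk_mul]
  rw [Submodule.coe_add, Submodule.coe_sub, quotientToInvariants_coe_apply,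
    descend₁_coe A U e hconst hinv, descend₁_coe A U e hconst hinv,
    descend₁_coe A U e hconst hinv]

end Descent2

section Cyclic

variable (A : Rep k G) (U : Subgroup G) [hU : U.Normal]

lemma mk_mul_of_mem (g s : G) (hs : s ∈ U) : ((g * s : G) : G ⧸ U) = g := by
  rw [QuotientGroup.mk_mul, (QuotientGroup.eq_one_iff s).2 hs, mul_one]

/-- **One-level `p`-divisibility in a cyclic `H²`.** -/
theorem exists_pdiv_of_cyclic_H2_quotient
    (N m p : ℕ) (hm : 0 < m) (hN : p * m ∣ N)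
    (γ : groupCohomology (A.quotientToInvariants U) 2)
    (hgen : ∀ x : groupCohomology (A.quotientToInvariants U) 2, ∃ j : ℤ, x = j • γ)
    (hord : ∀ j : ℤ, j • γ = 0 → (N : ℤ) ∣ j)
    (c : G × G → A) (hcconst : ∀ g g' s s', s ∈ U → s' ∈ U → c (g * s, g' * s') = c (g, g'))
    (hcinv : ∀ x, ∀ s ∈ U, A.ρ s (c x) = c x) (hcoc : dd23 A.ρ c = 0)
    (e : G → A) (heconst : ∀ g s, s ∈ U → e (g * s) = e g)
    (heinv : ∀ g, ∀ s ∈ U, A.ρ s (e g) = e g)
    (he : dd12 A.ρ e = m • c) :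
    ∃ (c' : G × G → A) (e' : G → A),
      (∀ g g' s s', s ∈ U → s' ∈ U → c' (g * s, g' * s') = c' (g, g')) ∧
      dd23 A.ρ c' = 0 ∧ (∀ g s, s ∈ U → e' (g * s) = e' g) ∧ c = p • c' + dd12 A.ρ e' := by
  classical
  -- the descended cocycle
  have hzmem : descend₂ A U c hcinv ∈ cocycles₂ (A.quotientToInvariants U) := by
    rw [cocycles₂, LinearMap.mem_ker, d₂₃_eq_dd23]
    exact dd23_descend₂ A U c hcconst hcinv hcoc
  let z : cocycles₂ (A.quotientToInvariants U) := ⟨descend₂ A U c hcinv, hzmem⟩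
  -- `m • [z] = 0`
  have hmz : m • (H2π (A.quotientToInvariants U) z) = 0 := by
    rw [← map_nsmul, H2π_eq_zero_iff]
    refine ⟨descend₁ A U e heinv, ?_⟩
    rw [d₁₂_eq_dd12]
    funext ⟨q₁, q₂⟩
    obtain ⟨g₁, rfl⟩ := QuotientGroup.mk_surjective q₁
    obtain ⟨g₂, rfl⟩ := QuotientGroup.mk_surjective q₂
    apply Subtype.ext
    rw [dd12_descend₁ A U e heconst heinv, he]
    show m • c (g₁, g₂) = ((m • descend₂ A U c hcinv) ((g₁ : G ⧸ U), (g₂ : G ⧸ U))).1
    rw [Pi.smul_apply, Submodule.coe_smul_of_tower, descend₂_coe A U c hcconst hcinv]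
  obtain ⟨j, hj⟩ := hgen (H2π (A.quotientToInvariants U) z)
  have hNdvd : (N : ℤ) ∣ (m : ℤ) * j := by
    apply hord
    rw [mul_smul, ← hj, natCast_zsmul]
    exact hmz
  have hpj : (p : ℤ) ∣ j := by
    have h1 : ((p * m : ℕ) : ℤ) ∣ (m : ℤ) * j := (Int.natCast_dvd_natCast.2 hN).trans hNdvd
    rw [Nat.cast_mul, mul_comm (p : ℤ)] at h1
    exact Int.dvd_of_mul_dvd_mul_left (by exact_mod_cast hm.ne') h1
  obtain ⟨j', rfl⟩ := hpj
  -- lift `j' • γ` to a cocycle
  have hsurj : Function.Surjective (H2π (A.quotientToInvariants U)) :=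
    (ModuleCat.epi_iff_surjective _).1 inferInstance
  obtain ⟨z', hz'⟩ := hsurj (j' • γ)
  have hdiff : H2π (A.quotientToInvariants U) (z - p • z') = 0 := by
    rw [map_sub, map_nsmul, hz', hj, ← natCast_zsmul, ← mul_smul, sub_self]
  rw [H2π_eq_zero_iff] at hdiff
  obtain ⟨eb, heb⟩ := hdiff
  rw [d₁₂_eq_dd12] at heb
  refine ⟨fun x => (z' ((x.1 : G ⧸ U), (x.2 : G ⧸ U))).1, fun g => (eb (g : G ⧸ U)).1,
    fun g g' s s' hs hs' => ?_, ?_, fun g s hs => ?_, ?_⟩
  · simp only [mk_mul_of_mem U g s hs, mk_mul_of_mem U g' s' hs']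
  · have hz'mem : dd23 (A.quotientToInvariants U).ρ z' = 0 := by
      have h1 : (d₂₃ (A.quotientToInvariants U)).hom z'.1 = 0 := LinearMap.mem_ker.1 z'.2
      rw [d₂₃_eq_dd23] at h1
      exact h1
    funext ⟨g, h, i⟩
    have := congrArg Subtype.val (congrFun hz'mem ((g : G ⧸ U), (h : G ⧸ U), (i : G ⧸ U)))
    simp only [dd23_apply, ← QuotientGroup.mk_mul, Pi.zero_apply] at this
    rw [Submodule.coe_sub, Submodule.coe_add, Submodule.coe_sub,
      quotientToInvariants_coe_apply] at this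
    simp only [dd23_apply, Pi.zero_apply]
    exact this
  · simp only [mk_mul_of_mem U g s hs]
  · funext ⟨g, h⟩
    have h1 := congrArg Subtype.val (congrFun heb ((g : G ⧸ U), (h : G ⧸ U)))
    have h2 : ((⇑(z - p • z') : (G ⧸ U) × (G ⧸ U) → (A.quotientToInvariants U))
        ((g : G ⧸ U), (h : G ⧸ U))).1 =
        c (g, h) - p • (z' ((g : G ⧸ U), (h : G ⧸ U))).1 := by
      show ((descend₂ A U c hcinv - p • z'.1) ((g : G ⧸ U), (h : G ⧸ U))).1 = _
      rw [Pi.sub_apply, Pi.smul_apply, Submodule.coe_sub, Submodule.coe_smul_of_tower,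
        descend₂_coe A U c hcconst hcinv]
      rfl
    rw [h2] at h1
    simp only [dd12_apply, ← QuotientGroup.mk_mul] at h1
    rw [Submodule.coe_add, Submodule.coe_sub, quotientToInvariants_coe_apply] at h1
    simp only [Pi.add_apply, Pi.smul_apply, dd12_apply]
    rw [h1]
    abel

end Cyclic

section Level

open Fermat.Agent.S55.Profin15

/-- `H²(G ⧸ U, A^U)` is cyclic, generated by a class whose annihilator lies in `N ℤ`. -/
def IsCyclicH2Level (A : Rep k G) (U : Subgroup G) [U.Normal] (N : ℕ) : Prop :=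
  ∃ γ : groupCohomology (A.quotientToInvariants U) 2,
    (∀ x : groupCohomology (A.quotientToInvariants U) 2, ∃ j : ℤ, x = j • γ) ∧
    ∀ j : ℤ, j • γ = 0 → (N : ℤ) ∣ j

/-- **`p`-divisibility of `p`-primary level classes in degree `2`** for a smooth module whose
finite-level `H²` are cyclic of orders with unbounded `p`-part (cofinally). -/
theorem exists_pdiv_of_cofinal_cyclic_H2 (𝒰 : LevelStr G) (A : Rep k G)
    (hsm : CD3.IsSmoothRep 𝒰 A.ρ) (p a : ℕ)
    (hcyc : ∀ U ∈ 𝒰.levels, ∃ U' : Subgroup G, ∃ hU' : U' ∈ 𝒰.levels, U' ≤ U ∧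
      letI := 𝒰.normal U' hU'
      ∃ N : ℕ, p ^ (a + 1) ∣ N ∧ IsCyclicH2Level A U' N)
    (hp : 0 < p)
    (c : G × G → A) (hc : 𝒰.IsConst₂ c) (hcoc : dd23 A.ρ c = 0)
    (e : G → A) (he : 𝒰.IsConst₁ e) (hec : dd12 A.ρ e = p ^ a • c) :
    ∃ (c' : G × G → A) (e' : G → A), 𝒰.IsConst₂ c' ∧ dd23 A.ρ c' = 0 ∧ 𝒰.IsConst₁ e' ∧
      c = p • c' + dd12 A.ρ e' := by
  obtain ⟨V₁, hV₁, hfix₁⟩ := hsm.exists_level_of_finite hc.finite_range
  obtain ⟨V₂, hV₂, hfix₂⟩ := hsm.exists_level_of_finite he.finite_range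
  obtain ⟨W₁, hW₁, hle₁, hc₁⟩ := hc.exists_le hV₁
  obtain ⟨W₂, hW₂, hle₂, he₂⟩ := he.exists_le hV₂
  obtain ⟨W, hW, hleW⟩ := 𝒰.directed W₁ hW₁ W₂ hW₂
  obtain ⟨U', hU', hle', N, hN, γ, hgen, hord⟩ := hcyc W hW
  have hn := 𝒰.normal U' hU'
  have h1 : U' ≤ W₁ := hle'.trans (hleW.trans inf_le_left)
  have h2 : U' ≤ W₂ := hle'.trans (hleW.trans inf_le_right)
  obtain ⟨c', e', hc', hcoc', he', heq⟩ := exists_pdiv_of_cyclic_H2_quotient A U' N (p ^ a) p
    (pow_pos hp a) (by rwa [mul_comm, ← pow_succ]) γ hgen hord c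
    (fun g g' s s' hs hs' => hc₁ g g' s s' (h1 hs) (h1 hs'))
    (fun x s hs => hfix₁ (c x) ⟨x, rfl⟩ s (hle₁ (h1 hs))) hcoc e
    (fun g s hs => he₂ g s (h2 hs))
    (fun g s hs => hfix₂ (e g) ⟨g, rfl⟩ s (hle₂ (h2 hs))) hec
  exact ⟨c', e', ⟨U', hU', hc'⟩, hcoc', ⟨U', hU', he'⟩, heq⟩

end Level

end Fermat.Agent.S55.CDKummer71
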