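/-
[P5 / (A4), second route] (helper71): torsion of level `H²` for cofinally cyclic finite layers.

Let `𝒰` be a level structure on `G` and `A` a smooth module.  If cofinally many finite layers
`H²(G ⧸ U, A^U)` (Mathlib group cohomology) are cyclic, then for every `n > 0` the `n`-torsion of
the level cohomology `𝒰.H2 A` has at most `n` elements.

Application: `|Br(K)[p]| ≤ p` for local fields from the cyclicity of `H²(Gal(L/K), Lˣ)` alone
(no invariant map).
-/
import Mathlib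
import Fermat.Agent.S55.LevelColim49.Colim

set_option autoImplicit false

universe u

open CategoryTheory groupCohomology

namespace Fermat.Agent.S55.CDKummer71

open Fermat.Agent.S55.Profin15 Fermat.Agent.S55.LevelColim49

section Cyclic

/-- the `n`-torsion of an additively cyclic group has at most `n` elements -/
lemma card_torsion_le_of_cyclic {C : Type*} [AddCommGroup C] (γ : C)
    (hγ : ∀ x : C, ∃ j : ℤ, x = j • γ) (n : ℕ) (hn : 0 < n) (s : Finset C)
    (hs : ∀ x ∈ s, n • x = 0) : s.card ≤ n := by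
  classical
  have : IsAddCyclic C := ⟨γ, fun x => by obtain ⟨j, hj⟩ := hγ x; exact ⟨j, hj.symm⟩⟩
  let T : AddSubgroup C := (nsmulAddMonoidHom (α := C) n).ker
  have hT : ∀ x : C, x ∈ T ↔ n • x = 0 := fun x => by
    rw [AddMonoidHom.mem_ker, nsmulAddMonoidHom_apply]
  obtain ⟨g, hg⟩ := IsAddCyclic.exists_generator (α := T)
  have htop : AddSubgroup.zmultiples g = ⊤ := (AddSubgroup.eq_top_iff' _).2 hg
  have hng : n • g = 0 := Subtype.ext ((hT g.1).1 g.2)
  have hdvd : addOrderOf g ∣ n := addOrderOf_dvd_of_nsmul_eq_zero hng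
  have hcard : Nat.card T = addOrderOf g := by
    rw [← Nat.card_zmultiples g, htop, AddSubgroup.card_top]
  have hpos : 0 < addOrderOf g := Nat.pos_of_dvd_of_pos hdvd hn
  have hfin : Finite T := Nat.finite_of_card_ne_zero (by rw [hcard]; exact hpos.ne')
  have hle : Nat.card T ≤ n := by rw [hcard]; exact Nat.le_of_dvd hn hdvd
  let f : ↥s → T := fun x => ⟨x.1, (hT x.1).2 (hs x.1 x.2)⟩
  have hf : Function.Injective f := fun a b hab => Subtype.ext (congrArg (fun t : T => t.1) hab)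
  have := Nat.card_le_card_of_injective f hf
  rw [Nat.card_eq_fintype_card, Fintype.card_coe] at this
  exact this.trans hle

end Cyclic

section Level

variable {k G : Type u} [CommRing k] [Group G] {A : Rep.{u, u, u} k G}
  (𝒰 : LevelStr G) (hA : 𝒰.IsSmooth A)

include hA

/-- an `n`-torsion level class lifts to an `n`-torsion class of a finite layer below any given
level -/
lemma exists_torsion_lift (n : ℕ) (x : 𝒰.H2 A) (hx : n • x = 0) {U₀ : Subgroup G}
    (hU₀ : U₀ ∈ 𝒰.levels) :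
    ∃ (W : Subgroup G) (_ : W.Normal) (hW : W ∈ 𝒰.levels) (_ : W ≤ U₀)
      (y : H2 (layer A W)), infl₂ A 𝒰 hW y = x ∧ n • y = 0 := by
  obtain ⟨W₁, hW₁n, hW₁, hle₁, y₁, hy₁⟩ := exists_infl₂_eq 𝒰 hA x hU₀
  have h0 : infl₂ A 𝒰 hW₁ (n • y₁) = 0 := by rw [map_nsmul, hy₁, hx]
  obtain ⟨V, hVn, hV, hVW, hV0⟩ := (infl₂_eq_zero_iff 𝒰 hA hW₁ (n • y₁)).1 h0
  refine ⟨V, hVn, hV, hVW.trans hle₁, trans₂ A hVW y₁, ?_, ?_⟩
  · rw [infl₂_trans₂ A 𝒰 hW₁ hV hVW, hy₁]
  · rw [← map_nsmul, hV0]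

/-- finitely many `n`-torsion level classes lift to `n`-torsion classes of ONE finite layer
below any given level -/
lemma exists_torsion_lift_finset (n : ℕ) (s : Finset (𝒰.H2 A)) (hs : ∀ x ∈ s, n • x = 0)
    {U₀ : Subgroup G} (hU₀ : U₀ ∈ 𝒰.levels) :
    ∃ (W : Subgroup G) (_ : W.Normal) (hW : W ∈ 𝒰.levels) (_ : W ≤ U₀),
      ∀ x ∈ s, ∃ y : H2 (layer A W), infl₂ A 𝒰 hW y = x ∧ n • y = 0 := by
  classical
  induction s using Finset.induction_on with
  | empty =>
    have hn := 𝒰.normal U₀ hU₀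
    exact ⟨U₀, hn, hU₀, le_rfl, fun x hx => absurd hx (Finset.notMem_empty x)⟩
  | insert a s _ ih =>
    obtain ⟨W, hWn, hW, hle, hlift⟩ := ih fun x hx => hs x (Finset.mem_insert_of_mem hx)
    obtain ⟨W', hW'n, hW', hle', y, hy, hny⟩ :=
      exists_torsion_lift 𝒰 hA n a (hs a (Finset.mem_insert_self a s)) hW
    refine ⟨W', hW'n, hW', hle'.trans hle, fun x hx => ?_⟩
    rcases Finset.mem_insert.1 hx with rfl | hx
    · exact ⟨y, hy, hny⟩
    · obtain ⟨z, hz, hnz⟩ := hlift x hx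
      refine ⟨trans₂ A hle' z, ?_, ?_⟩
      · rw [infl₂_trans₂ A 𝒰 hW hW' hle', hz]
      · rw [← map_nsmul, hnz, map_zero]

/-- **the `n`-torsion of level `H²` has at most `n` elements** when cofinally many finite layers
have cyclic `H²`. -/
theorem card_torsion_H2_le (n : ℕ) (hn : 0 < n)
    (hcyc : ∀ U ∈ 𝒰.levels, ∃ (U' : Subgroup G) (_ : U'.Normal) (_ : U' ∈ 𝒰.levels), U' ≤ U ∧
      ∃ γ : H2 (layer A U'), ∀ x : H2 (layer A U'), ∃ j : ℤ, x = j • γ)
    (s : Finset (𝒰.H2 A)) (hs : ∀ x ∈ s, n • x = 0) : s.card ≤ n := by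
  classical
  obtain ⟨U₀, hU₀⟩ := 𝒰.nonempty
  obtain ⟨W, hWn, hW, -, hlift⟩ := exists_torsion_lift_finset 𝒰 hA n s hs hU₀
  obtain ⟨W', hW'n, hW', hle', γ, hγ⟩ := hcyc W hW
  -- lifts at the cyclic layer `W'`
  have hlift' : ∀ x ∈ s, ∃ y : H2 (layer A W'), infl₂ A 𝒰 hW' y = x ∧ n • y = 0 := by
    intro x hx
    obtain ⟨z, hz, hnz⟩ := hlift x hx
    refine ⟨trans₂ A hle' z, ?_, ?_⟩
    · rw [infl₂_trans₂ A 𝒰 hW hW' hle', hz]
    · rw [← map_nsmul, hnz, map_zero]
  choose! f hf using hlift'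
  have hinj : Set.InjOn f (s : Set (𝒰.H2 A)) := by
    intro a ha b hb hab
    rw [← (hf a ha).1, ← (hf b hb).1, hab]
  have hcard : (s.image f).card = s.card := Finset.card_image_of_injOn hinj
  rw [← hcard]
  refine card_torsion_le_of_cyclic γ hγ n hn (s.image f) fun y hy => ?_
  obtain ⟨x, hx, rfl⟩ := Finset.mem_image.1 hy
  exact (hf x hx).2

/-- the same as a cardinality statement on `Submodule.torsionBy ℤ`. -/
theorem card_torsionBy_H2_le (n : ℕ) (hn : 0 < n)
    (hcyc : ∀ U ∈ 𝒰.levels, ∃ (U' : Subgroup G) (_ : U'.Normal) (_ : U' ∈ 𝒰.levels), U' ≤ U ∧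
      ∃ γ : H2 (layer A U'), ∀ x : H2 (layer A U'), ∃ j : ℤ, x = j • γ) :
    Finite ↥(Submodule.torsionBy ℤ (𝒰.H2 A) (n : ℤ)) ∧
      Nat.card ↥(Submodule.torsionBy ℤ (𝒰.H2 A) (n : ℤ)) ≤ n := by
  classical
  have key : ∀ t : Finset ↥(Submodule.torsionBy ℤ (𝒰.H2 A) (n : ℤ)), t.card ≤ n := by
    intro t
    have h1 : (t.image (Subtype.val)).card = t.card :=
      Finset.card_image_of_injective _ Subtype.val_injective
    rw [← h1]
    refine card_torsion_H2_le 𝒰 hA n hn hcyc _ fun x hx => ?_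
    obtain ⟨y, -, rfl⟩ := Finset.mem_image.1 hx
    have := (Submodule.mem_torsionBy_iff _ _).1 y.2
    rwa [natCast_zsmul] at this
  let _ : Fintype ↥(Submodule.torsionBy ℤ (𝒰.H2 A) (n : ℤ)) := fintypeOfFinsetCardLe n key
  refine ⟨inferInstance, ?_⟩
  rw [Nat.card_eq_fintype_card]
  exact key Finset.univ

end Level

end Fermat.Agent.S55.CDKummer71
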